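/-
S27 / (NORM), part 1: geometric series `Σ a^m X^(n m)` in `R⟦X⟧`, behaviour under `rescale`,
the roots-of-unity product identity, congruences of power series modulo `X^(N+1)`,
a polynomiality bound for finite products and a positivity statement over `ℕ`.
Pure Mathlib. Prefix `s27n_`.
-/
import Mathlib

set_option autoImplicit false

namespace Fermat.Agent.S27

open PowerSeries Finset

/-- The geometric series `Σ_m a^m X^(n m)`. -/
noncomputable def s27n_geo {R : Type*} [CommSemiring R] (n : ℕ) (a : R) : R⟦X⟧ :=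
  PowerSeries.mk fun k => if n ∣ k then a ^ (k / n) else 0

theorem s27n_coeff_geo {R : Type*} [CommSemiring R] (n : ℕ) (a : R) (k : ℕ) :
    coeff k (s27n_geo n a) = if n ∣ k then a ^ (k / n) else 0 := by
  simp [s27n_geo]

theorem s27n_constantCoeff_geo {R : Type*} [CommSemiring R] (n : ℕ) (a : R) :
    constantCoeff (s27n_geo n a) = 1 := by
  rw [← coeff_zero_eq_constantCoeff_apply, s27n_coeff_geo]
  simp

theorem s27n_geo_mul {R : Type*} [CommRing R] {n : ℕ} (hn : 0 < n) (a : R) :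
    s27n_geo n a * (1 - C a * X ^ n) = 1 := by
  ext k
  rw [mul_sub, mul_one, map_sub, ← mul_assoc, coeff_mul_X_pow', mul_comm _ (C a)]
  by_cases hk : n ≤ k
  · rw [if_pos hk, coeff_C_mul, s27n_coeff_geo, s27n_coeff_geo]
    have hdvd : n ∣ k - n ↔ n ∣ k := by
      constructor
      · rintro ⟨m, hm⟩
        exact ⟨m + 1, by rw [Nat.mul_succ]; omega⟩
      · intro h
        exact Nat.dvd_sub h dvd_rfl
    by_cases hd : n ∣ k
    · rw [if_pos hd, if_pos (hdvd.mpr hd)]
      obtain ⟨m, rfl⟩ := hd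
      have hm : 0 < m := by
        rcases Nat.eq_zero_or_pos m with h | h
        · subst h; omega
        · exact h
      have h1 : n * m - n = n * (m - 1) := by
        rw [Nat.mul_sub, mul_one]
      rw [h1, Nat.mul_div_cancel_left _ hn, Nat.mul_div_cancel_left _ hn, coeff_one]
      have hne : n * m ≠ 0 := by positivity
      rw [if_neg hne]
      obtain ⟨m', rfl⟩ : ∃ m', m = m' + 1 := ⟨m - 1, by omega⟩
      rw [Nat.add_sub_cancel, pow_succ]
      ring
    · rw [if_neg hd, if_neg (fun h => hd (hdvd.mp h)), coeff_one]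
      have : k ≠ 0 := by omega
      rw [if_neg this]
      ring
  · rw [if_neg hk, s27n_coeff_geo, coeff_one]
    rw [not_le] at hk
    by_cases hk0 : k = 0
    · subst hk0
      simp
    · have hd : ¬ n ∣ k := fun h => by
        have := Nat.le_of_dvd (Nat.pos_of_ne_zero hk0) h
        omega
      rw [if_neg hd, if_neg hk0]
      ring

theorem s27n_rescale_geo {R : Type*} [CommSemiring R] (n : ℕ) (a ω : R) :
    rescale ω (s27n_geo n a) = s27n_geo n (a * ω ^ n) := by
  ext k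
  rw [coeff_rescale, s27n_coeff_geo, s27n_coeff_geo]
  by_cases hd : n ∣ k
  · rw [if_pos hd, if_pos hd]
    obtain ⟨m, rfl⟩ := hd
    rcases Nat.eq_zero_or_pos n with h | h
    · subst h
      simp
    · rw [Nat.mul_div_cancel_left _ h, mul_pow, ← pow_mul]
      ring
  · rw [if_neg hd, if_neg hd, mul_zero]

/-! ### Roots of unity -/

theorem s27n_prod_one_sub {A : Type*} [CommRing A] [IsDomain A] {η : A} {m : ℕ}
    (hη : IsPrimitiveRoot η m) (hm : 0 < m) (u : A) :
    ∏ j ∈ range m, (1 - η ^ j * u) = 1 - u ^ m := by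
  have h := congrArg (Polynomial.eval (1 : A)) (X_pow_sub_C_eq_prod hη hm (rfl : u ^ m = u ^ m))
  rw [Polynomial.eval_prod] at h
  simpa using h.symm

theorem s27n_prod_periodic {A : Type*} [CommMonoid A] {M : Type*} [Monoid M] (f : M → A) {η : M}
    {m : ℕ} (hη : η ^ m = 1) (g : ℕ) :
    ∏ j ∈ range (m * g), f (η ^ j) = (∏ j ∈ range m, f (η ^ j)) ^ g := by
  induction g with
  | zero => simp
  | succ g ih =>
    rw [Nat.mul_succ, prod_range_add, ih, pow_succ]
    congr 1
    refine prod_congr rfl fun j _ => ?_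
    rw [pow_add, pow_mul, hη, one_pow, one_mul]

/-- The key identity: for `ζ` a primitive `d`-th root of unity and `a ^ (d / gcd d n) = 1`,
`∏_{j<d} (1 - a ζ^(j n) X^n) = (1 - X^(n d'))^(gcd d n)`, `d' = d / gcd d n`. -/
theorem s27n_prod_euler_factor {K : Type*} [Field K] {ζ : K} {d : ℕ} (hζ : IsPrimitiveRoot ζ d)
    (hd : 0 < d) {n : ℕ} (hn : 0 < n) {a : K} (ha : a ^ (d / Nat.gcd d n) = 1) :
    ∏ j ∈ range d, (1 - C (a * (ζ ^ j) ^ n) * (X : K⟦X⟧) ^ n)
      = (1 - (X : K⟦X⟧) ^ (n * (d / Nat.gcd d n))) ^ (Nat.gcd d n) := by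
  set g := Nat.gcd d n with hg
  set d' := d / g with hd'
  have hgpos : 0 < g := Nat.gcd_pos_of_pos_left _ hd
  have hdg : d = d' * g := (Nat.div_mul_cancel (Nat.gcd_dvd_left d n)).symm
  have hd'pos : 0 < d' := Nat.div_pos (Nat.le_of_dvd hd (Nat.gcd_dvd_left d n)) hgpos
  have hη : IsPrimitiveRoot (ζ ^ n) d' := by
    have := IsPrimitiveRoot.orderOf (ζ ^ n)
    rwa [orderOf_pow' _ hn.ne', ← hζ.eq_orderOf] at this
  have hη' : IsPrimitiveRoot (C (ζ ^ n) : K⟦X⟧) d' :=
    hη.map_of_injective (f := (C : K →+* K⟦X⟧)) PowerSeries.C_injective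
  have h1 : ∀ j, (1 - C (a * (ζ ^ j) ^ n) * (X : K⟦X⟧) ^ n)
      = 1 - (C (ζ ^ n)) ^ j * (C a * X ^ n) := by
    intro j
    rw [← pow_mul, mul_comm j n, pow_mul, map_mul, map_pow]
    ring
  rw [prod_congr rfl fun j _ => h1 j]
  have h2 := s27n_prod_periodic (fun y : K⟦X⟧ => 1 - y * (C a * X ^ n)) hη'.pow_eq_one g
  conv_lhs => rw [hdg]
  rw [h2]
  congr 1
  rw [s27n_prod_one_sub hη' hd'pos, mul_pow, ← map_pow, ha, map_one, one_mul, ← pow_mul]

/-! ### Congruences modulo `X^(N+1)` -/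

theorem s27n_congr_mul {R : Type*} [CommSemiring R] {N : ℕ} {f f' g g' : R⟦X⟧}
    (hf : ∀ n ≤ N, coeff n f = coeff n f') (hg : ∀ n ≤ N, coeff n g = coeff n g') :
    ∀ n ≤ N, coeff n (f * g) = coeff n (f' * g') := by
  intro n hn
  rw [coeff_mul, coeff_mul]
  refine sum_congr rfl fun p hp => ?_
  rw [hf _ ((HasAntidiagonal.antidiagonal.fst_le hp).trans hn), hg _ ((HasAntidiagonal.antidiagonal.snd_le hp).trans hn)]

theorem s27n_congr_prod {R : Type*} [CommSemiring R] {ι : Type*} {N : ℕ} (s : Finset ι)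
    {f f' : ι → R⟦X⟧} (hf : ∀ i ∈ s, ∀ n ≤ N, coeff n (f i) = coeff n (f' i)) :
    ∀ n ≤ N, coeff n (∏ i ∈ s, f i) = coeff n (∏ i ∈ s, f' i) := by
  classical
  induction s using Finset.induction_on with
  | empty => intro n _; simp
  | insert i s hi ih =>
    rw [prod_insert hi, prod_insert hi]
    exact s27n_congr_mul (hf i (mem_insert_self i s))
      (ih fun j hj => hf j (mem_insert_of_mem hj))

/-! ### Polynomiality of finite products -/

theorem s27n_poly_prod {R : Type*} [CommRing R] {ι : Type*} (s : Finset ι) (c : ℕ)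
    {f : ι → R⟦X⟧} (hf : ∀ i ∈ s, ∀ n, c ≤ n → coeff n (f i) = 0) :
    ∀ n, s.card * c + 1 ≤ n → coeff n (∏ i ∈ s, f i) = 0 := by
  classical
  intro n hn
  have h1 : ∀ i ∈ s, f i = ((trunc c (f i) : Polynomial R) : R⟦X⟧) := by
    intro i hi
    ext k
    rw [Polynomial.coeff_coe, coeff_trunc]
    split_ifs with hk
    · rfl
    · exact hf i hi k (not_lt.mp hk)
  have hp : ∏ x ∈ s, ((trunc c (f x) : Polynomial R) : R⟦X⟧)
      = ((∏ x ∈ s, trunc c (f x) : Polynomial R) : R⟦X⟧) :=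
    (map_prod Polynomial.coeToPowerSeries.ringHom _ _).symm
  rw [prod_congr rfl h1, hp, Polynomial.coeff_coe]
  apply Polynomial.coeff_eq_zero_of_natDegree_lt
  refine lt_of_le_of_lt (Polynomial.natDegree_prod_le _ _) ?_
  have h2 : ∑ i ∈ s, (trunc c (f i)).natDegree ≤ ∑ _i ∈ s, c := by
    refine sum_le_sum fun i _ => ?_
    rcases Nat.eq_zero_or_pos c with h | h
    · subst h
      simp
    · exact (natDegree_trunc_lt (f i) (c - 1) |>.le.trans (by omega)) |> fun h' => by
        have : c - 1 + 1 = c := by omega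
        rw [this] at h'
        exact h'
  rw [sum_const, smul_eq_mul] at h2
  omega

/-! ### Positivity over `ℕ` -/

theorem s27n_coeff_le_mul {f g : ℕ⟦X⟧} (hf : constantCoeff f = 1) (n : ℕ) :
    coeff n g ≤ coeff n (f * g) := by
  rw [coeff_mul]
  have hmem : ((0, n) : ℕ × ℕ) ∈ antidiagonal n := by simp
  have := single_le_sum (f := fun p : ℕ × ℕ => coeff p.1 f * coeff p.2 g)
    (fun p _ => Nat.zero_le _) hmem
  simpa [hf] using this

theorem s27n_constantCoeff_prod {ι : Type*} (s : Finset ι) {f : ι → ℕ⟦X⟧}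
    (hf : ∀ i ∈ s, constantCoeff (f i) = 1) : constantCoeff (∏ i ∈ s, f i) = 1 := by
  rw [map_prod]
  exact prod_eq_one hf

theorem s27n_pos_prod {ι : Type*} [DecidableEq ι] (s : Finset ι) (e g : ι → ℕ)
    (hg : ∀ i ∈ s, 0 < g i) {i₀ : ι} (hi₀ : i₀ ∈ s) :
    1 ≤ coeff (e i₀) (∏ i ∈ s, (s27n_geo (e i) (1 : ℕ)) ^ g i) := by
  rw [← mul_prod_erase s _ hi₀]
  obtain ⟨g', hg'⟩ : ∃ g', g i₀ = g' + 1 := ⟨g i₀ - 1, by have := hg i₀ hi₀; omega⟩
  rw [hg', pow_succ, mul_comm (s27n_geo (e i₀) 1 ^ g'), mul_assoc, mul_comm]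
  refine le_trans ?_ (s27n_coeff_le_mul ?_ _)
  · rw [s27n_coeff_geo, if_pos dvd_rfl, one_pow]
  · rw [map_mul, map_pow, s27n_constantCoeff_geo, one_pow, one_mul]
    exact s27n_constantCoeff_prod _ fun i _ => by
      rw [map_pow, s27n_constantCoeff_geo, one_pow]

theorem s27n_map_geo {R S : Type*} [CommSemiring R] [CommSemiring S] (φ : R →+* S) (n : ℕ)
    (a : R) : PowerSeries.map φ (s27n_geo n a) = s27n_geo n (φ a) := by
  ext k
  rw [coeff_map, s27n_coeff_geo, s27n_coeff_geo]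
  split_ifs <;> simp

end Fermat.Agent.S27
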