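/-
S27 / (NORM), part 2: the truncated Euler product.
For weights `w : ι → ℕ` (all positive), `a : ι → R` and a finite set `S`,
`coeff n (∏_{i∈S} Σ_m (a i)^m X^(m w i)) = Σ_{A : supp A ⊆ S, wt A = n} ∏_i (a i)^(A i)`.
Pure Mathlib. Prefix `s27n_`.
-/
import Fermat.Agent.S27.Norm.Geo

set_option autoImplicit false

namespace Fermat.Agent.S27

open PowerSeries Finset
open scoped Classical

variable {ι : Type*}

/-- Weighted degree of an effective divisor. -/
noncomputable def s27n_wt (w : ι → ℕ) (A : ι →₀ ℕ) : ℕ := A.sum fun i m => m * w i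

theorem s27n_wt_eq_sum (w : ι → ℕ) {A : ι →₀ ℕ} {S : Finset ι} (hS : A.support ⊆ S) :
    s27n_wt w A = ∑ i ∈ S, A i * w i :=
  Finsupp.sum_of_support_subset A hS _ (fun _ _ => Nat.zero_mul _)

noncomputable def s27n_fdiv (w : ι → ℕ) (l : ι →₀ ℕ) : ι →₀ ℕ :=
  Finsupp.onFinset l.support (fun i => l i / w i) (by
    intro i hi
    rw [Finsupp.mem_support_iff]
    intro h0
    apply hi
    simp [h0])

noncomputable def s27n_fmul (w : ι → ℕ) (A : ι →₀ ℕ) : ι →₀ ℕ :=
  Finsupp.onFinset A.support (fun i => A i * w i) (by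
    intro i hi
    rw [Finsupp.mem_support_iff]
    intro h0
    apply hi
    simp [h0])

@[simp] theorem s27n_fdiv_apply (w : ι → ℕ) (l : ι →₀ ℕ) (i : ι) :
    s27n_fdiv w l i = l i / w i := rfl

@[simp] theorem s27n_fmul_apply (w : ι → ℕ) (A : ι →₀ ℕ) (i : ι) :
    s27n_fmul w A i = A i * w i := rfl

theorem s27n_fdiv_support (w : ι → ℕ) (l : ι →₀ ℕ) : (s27n_fdiv w l).support ⊆ l.support := by
  intro i hi
  rw [Finsupp.mem_support_iff] at hi ⊢
  intro h0
  apply hi
  simp [h0]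

theorem s27n_fmul_support (w : ι → ℕ) (A : ι →₀ ℕ) : (s27n_fmul w A).support ⊆ A.support := by
  intro i hi
  rw [Finsupp.mem_support_iff] at hi ⊢
  intro h0
  apply hi
  simp [h0]

/-- Effective divisors supported in `S` of weighted degree `n`. -/
noncomputable def s27n_effS (w : ι → ℕ) (S : Finset ι) (n : ℕ) : Finset (ι →₀ ℕ) :=
  ((Finset.finsuppAntidiag S n).filter fun l => ∀ i, w i ∣ l i).image (s27n_fdiv w)

theorem s27n_mem_effS {w : ι → ℕ} (hw : ∀ i, 0 < w i) {S : Finset ι} {n : ℕ} {A : ι →₀ ℕ} :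
    A ∈ s27n_effS w S n ↔ A.support ⊆ S ∧ s27n_wt w A = n := by
  rw [s27n_effS, mem_image]
  constructor
  · rintro ⟨l, hl, rfl⟩
    rw [mem_filter, mem_finsuppAntidiag] at hl
    obtain ⟨⟨hsum, hsupp⟩, hdvd⟩ := hl
    have hS : (s27n_fdiv w l).support ⊆ S := (s27n_fdiv_support w l).trans hsupp
    refine ⟨hS, ?_⟩
    rw [s27n_wt_eq_sum w hS, ← hsum]
    refine sum_congr rfl fun i _ => ?_
    rw [s27n_fdiv_apply, Nat.div_mul_cancel (hdvd i)]
  · rintro ⟨hS, hwt⟩
    refine ⟨s27n_fmul w A, ?_, ?_⟩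
    · rw [mem_filter, mem_finsuppAntidiag]
      refine ⟨⟨?_, (s27n_fmul_support w A).trans hS⟩, fun i => ?_⟩
      · rw [← hwt, s27n_wt_eq_sum w hS]
        rfl
      · rw [s27n_fmul_apply]
        exact dvd_mul_left _ _
    · ext i
      rw [s27n_fdiv_apply, s27n_fmul_apply, Nat.mul_div_cancel _ (hw i)]

/-- **Truncated Euler product.** -/
theorem s27n_coeff_prod_geo {R : Type*} [CommSemiring R] (w : ι → ℕ) (a : ι → R)
    (S : Finset ι) (n : ℕ) :
    coeff n (∏ i ∈ S, s27n_geo (w i) (a i))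
      = ∑ A ∈ s27n_effS w S n, A.prod fun i m => a i ^ m := by
  rw [PowerSeries.coeff_prod, s27n_effS, sum_image]
  · rw [sum_filter]
    refine sum_congr rfl fun l hl => ?_
    rw [mem_finsuppAntidiag] at hl
    split_ifs with hdvd
    · rw [Finsupp.prod_of_support_subset (s := S) _ ((s27n_fdiv_support w l).trans hl.2) _
        (fun i _ => pow_zero _)]
      refine prod_congr rfl fun i _ => ?_
      rw [s27n_coeff_geo, if_pos (hdvd i), s27n_fdiv_apply]
    · rw [not_forall] at hdvd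
      obtain ⟨i, hi⟩ := hdvd
      have hiS : i ∈ S := by
        by_contra hnot
        have h0 : l i = 0 := by
          by_contra hne
          exact hnot (hl.2 (Finsupp.mem_support_iff.mpr hne))
        exact hi (h0 ▸ dvd_zero _)
      exact prod_eq_zero hiS (by rw [s27n_coeff_geo, if_neg hi])
  · intro l hl l' hl' h
    rw [mem_coe, mem_filter] at hl hl'
    ext i
    have hi := DFunLike.congr_fun h i
    rw [s27n_fdiv_apply, s27n_fdiv_apply] at hi
    rw [← Nat.div_mul_cancel (hl.2 i), ← Nat.div_mul_cancel (hl'.2 i), hi]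

/-- For `S` containing all indices of weight `≤ n`, the support condition is automatic. -/
theorem s27n_support_of_wt {w : ι → ℕ} {n : ℕ} {A : ι →₀ ℕ}
    (hA : s27n_wt w A = n) {i : ι} (hi : i ∈ A.support) : w i ≤ n := by
  rw [← hA, s27n_wt_eq_sum w (subset_refl _)]
  have h1 : A i * w i ≤ ∑ j ∈ A.support, A j * w j :=
    single_le_sum (f := fun j => A j * w j) (fun j _ => Nat.zero_le _) hi
  have h2 : 1 ≤ A i := Nat.one_le_iff_ne_zero.mpr (Finsupp.mem_support_iff.mp hi)
  calc w i = 1 * w i := (one_mul _).symm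
    _ ≤ A i * w i := Nat.mul_le_mul_right _ h2
    _ ≤ _ := h1

theorem s27n_mem_effS_of_le {w : ι → ℕ} (hw : ∀ i, 0 < w i) {S : Finset ι} {n : ℕ}
    (hS : ∀ i, w i ≤ n → i ∈ S) {A : ι →₀ ℕ} :
    A ∈ s27n_effS w S n ↔ s27n_wt w A = n := by
  rw [s27n_mem_effS hw]
  constructor
  · exact fun h => h.2
  · intro h
    exact ⟨fun i hi => hS i (s27n_support_of_wt h hi), h⟩

end Fermat.Agent.S27
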