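/-
S27 / (NORM), part 3: from the Riemann counting hypothesis to the vanishing of the coefficients
of `L(t,χ)` in large degrees (double counting, no quotient groups).
Pure Mathlib. Prefix `s27n_`.
-/
import Fermat.Agent.S27.Norm.Euler

set_option autoImplicit false

namespace Fermat.Agent.S27

open PowerSeries Finset
open scoped Classical

variable {Pl : Type*}

/-- Degree of a divisor (same shape as `AlgebraicCurve.Divisor.degree`). -/
noncomputable def s27n_Dg (deg : Pl → ℕ) : (Pl →₀ ℤ) →+ ℤ :=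
  Finsupp.liftAddHom fun P => AddMonoidHom.mulRight (deg P : ℤ)

theorem s27n_Dg_single (deg : Pl → ℕ) (P : Pl) (m : ℤ) :
    s27n_Dg deg (Finsupp.single P m) = m * deg P := by
  simp [s27n_Dg]

/-- Effective divisors with natural coefficients, as integral divisors. -/
noncomputable def s27n_toZ : (Pl →₀ ℕ) →+ (Pl →₀ ℤ) :=
  Finsupp.mapRange.addMonoidHom (Nat.castAddMonoidHom ℤ)

@[simp] theorem s27n_toZ_apply (A : Pl →₀ ℕ) (P : Pl) : s27n_toZ A P = (A P : ℤ) := rfl

theorem s27n_toZ_single (P : Pl) (m : ℕ) :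
    s27n_toZ (Finsupp.single P m) = Finsupp.single P (m : ℤ) := by
  ext Q
  rw [s27n_toZ_apply]
  by_cases h : P = Q
  · subst h; simp
  · simp [Finsupp.single_eq_of_ne' h]

theorem s27n_toZ_injective : Function.Injective (s27n_toZ (Pl := Pl)) := by
  intro A B h
  ext P
  have := DFunLike.congr_fun h P
  simpa using this

theorem s27n_Dg_toZ (deg : Pl → ℕ) (A : Pl →₀ ℕ) :
    s27n_Dg deg (s27n_toZ A) = (s27n_wt deg A : ℤ) := by
  induction A using Finsupp.induction_linear with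
  | zero => simp [s27n_wt]
  | add A B hA hB =>
    rw [map_add, map_add, hA, hB, s27n_wt, s27n_wt, s27n_wt,
      Finsupp.sum_add_index' (h := fun i m => m * deg i) (fun _ => Nat.zero_mul _)
        (fun _ _ _ => Nat.add_mul _ _ _)]
    push_cast
    rfl
  | single P m =>
    rw [s27n_toZ_single, s27n_Dg_single, s27n_wt, Finsupp.sum_single_index (h := fun i m => m * deg i) (Nat.zero_mul _)]
    push_cast
    rfl

/-- A character evaluated on an effective divisor is the monomial in its values on places. -/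
theorem s27n_char_toZ {R : Type*} [CommRing R] (χ : AddChar (Pl →₀ ℤ) R) (A : Pl →₀ ℕ) :
    χ (s27n_toZ A) = A.prod fun P m => χ (Finsupp.single P 1) ^ m := by
  induction A using Finsupp.induction_linear with
  | zero => simp
  | add A B hA hB =>
    rw [map_add, AddChar.map_add_eq_mul, hA, hB,
      Finsupp.prod_add_index' (h := fun P m => χ (Finsupp.single P 1) ^ m) (fun _ => pow_zero _)
        (fun _ _ _ => pow_add _ _ _)]
  | single P m =>
    rw [s27n_toZ_single, Finsupp.prod_single_index (h := fun P m => χ (Finsupp.single P 1) ^ m) (pow_zero _), ← AddChar.map_nsmul_eq_pow,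
      Finsupp.smul_single, nsmul_eq_mul, mul_one]

/-- The finite set of all effective divisors of degree `n`. -/
noncomputable def s27n_eff (deg : Pl → ℕ) (hfin : ∀ n, {P | deg P ≤ n}.Finite) (n : ℕ) :
    Finset (Pl →₀ ℕ) :=
  s27n_effS deg (hfin n).toFinset n

theorem s27n_mem_eff {deg : Pl → ℕ} (hpos : ∀ P, 0 < deg P)
    (hfin : ∀ n, {P | deg P ≤ n}.Finite) {n : ℕ} {A : Pl →₀ ℕ} :
    A ∈ s27n_eff deg hfin n ↔ s27n_wt deg A = n :=
  s27n_mem_effS_of_le hpos (fun _ hP => (hfin n).mem_toFinset.mpr hP)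

/-- **Vanishing of the coefficients of `L(t,χ)`** in degrees `≥ c`, for a character `χ`
trivial on the principal divisors but nontrivial on some divisor of degree zero. -/
theorem s27n_coeff_vanish {K : Type*} [Field K] [CharZero K] {deg : Pl → ℕ}
    (hpos : ∀ P, 0 < deg P) (hfin : ∀ n, {P | deg P ≤ n}.Finite)
    (Pr : AddSubgroup (Pl →₀ ℤ)) (hPr : ∀ D ∈ Pr, s27n_Dg deg D = 0)
    (c : ℤ) (Nn : ℤ → ℕ)
    (hcount : ∀ D : Pl →₀ ℤ, c ≤ s27n_Dg deg D →
      Nat.card {B : Pl →₀ ℕ // s27n_toZ B - D ∈ Pr} = Nn (s27n_Dg deg D))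
    (χ : AddChar (Pl →₀ ℤ) K) (hχ : ∀ D ∈ Pr, χ D = 1)
    (D₀ : Pl →₀ ℤ) (hD₀ : s27n_Dg deg D₀ = 0) (hχ0 : χ D₀ ≠ 1)
    (n : ℕ) (hn : c ≤ n) :
    ∑ A ∈ s27n_eff deg hfin n, χ (s27n_toZ A) = 0 := by
  set E := s27n_eff deg hfin n with hE
  have hmemE : ∀ A, A ∈ E ↔ s27n_Dg deg (s27n_toZ A) = n := by
    intro A
    rw [hE, s27n_mem_eff hpos hfin, s27n_Dg_toZ]
    exact Nat.cast_inj.symm
  -- (iv) the counting statement in `Finset` form
  have hiv : ∀ D, s27n_Dg deg D = n → (E.filter fun B => s27n_toZ B - D ∈ Pr).card = Nn n := by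
    intro D hD
    have h1 := hcount D (by rw [hD]; exact hn)
    rw [hD] at h1
    rw [← h1]
    refine (Nat.subtype_card _ fun B => ?_).symm
    rw [mem_filter, hmemE]
    constructor
    · exact fun h => h.2
    · intro h
      refine ⟨?_, h⟩
      have h2 := hPr _ h
      rw [map_sub, hD] at h2
      linarith
  rcases E.eq_empty_or_nonempty with hemp | ⟨A₁, hA₁⟩
  · rw [hemp, sum_empty]
  -- `Nn n ≠ 0`
  have hN : Nn n ≠ 0 := by
    rw [← hiv (s27n_toZ A₁) ((hmemE A₁).mp hA₁)]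
    refine card_ne_zero.mpr ⟨A₁, ?_⟩
    rw [mem_filter]
    exact ⟨hA₁, by rw [sub_self]; exact Pr.zero_mem⟩
  -- the relation
  have hrel : ∀ A B, s27n_toZ B - (s27n_toZ A + D₀) ∈ Pr →
      χ (s27n_toZ B) = χ (s27n_toZ A) * χ D₀ := by
    intro A B h
    have : s27n_toZ B = (s27n_toZ B - (s27n_toZ A + D₀)) + (s27n_toZ A + D₀) := by abel
    rw [this, AddChar.map_add_eq_mul, hχ _ h, one_mul, AddChar.map_add_eq_mul]
  have hsum1 : ∑ A ∈ E, ∑ B ∈ E.filter (fun B => s27n_toZ B - (s27n_toZ A + D₀) ∈ Pr),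
      χ (s27n_toZ B) = (Nn n : K) * χ D₀ * ∑ A ∈ E, χ (s27n_toZ A) := by
    rw [mul_sum]
    refine sum_congr rfl fun A hA => ?_
    have hc := hiv (s27n_toZ A + D₀) (by rw [map_add, hD₀, add_zero]; exact (hmemE A).mp hA)
    rw [sum_congr rfl (fun B hB => hrel A B (mem_filter.mp hB).2), sum_const, hc, nsmul_eq_mul]
    ring
  have hsum2 : ∑ A ∈ E, ∑ B ∈ E.filter (fun B => s27n_toZ B - (s27n_toZ A + D₀) ∈ Pr),
      χ (s27n_toZ B) = (Nn n : K) * ∑ B ∈ E, χ (s27n_toZ B) := by
    rw [sum_comm' (t' := E)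
      (s' := fun B => E.filter (fun A => s27n_toZ B - (s27n_toZ A + D₀) ∈ Pr))]
    · rw [mul_sum]
      refine sum_congr rfl fun B hB => ?_
      have hc := hiv (s27n_toZ B - D₀) (by rw [map_sub, hD₀, sub_zero]; exact (hmemE B).mp hB)
      have hfe : (E.filter fun A => s27n_toZ B - (s27n_toZ A + D₀) ∈ Pr)
          = E.filter fun A => s27n_toZ A - (s27n_toZ B - D₀) ∈ Pr := by
        refine filter_congr fun A _ => ?_
        rw [← neg_mem_iff (H := Pr)]
        have : -(s27n_toZ B - (s27n_toZ A + D₀)) = s27n_toZ A - (s27n_toZ B - D₀) := by abel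
        rw [this]
      rw [sum_const, hfe, hc, nsmul_eq_mul]
    · intro A B
      simp only [mem_filter]
      constructor
      · rintro ⟨hA, hB, h⟩
        exact ⟨⟨hA, h⟩, hB⟩
      · rintro ⟨⟨hA, h⟩, hB⟩
        exact ⟨hA, hB, h⟩
  have hfin' : (Nn n : K) * ((χ D₀ - 1) * ∑ A ∈ E, χ (s27n_toZ A)) = 0 := by
    have := hsum1.symm.trans hsum2
    linear_combination this
  rcases mul_eq_zero.mp hfin' with h | h
  · exact absurd (Nat.cast_eq_zero.mp h) hN
  · rcases mul_eq_zero.mp h with h' | h'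
    · exact absurd (sub_eq_zero.mp h') hχ0
    · exact h'

end Fermat.Agent.S27
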