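/-
S27 / (NORM): the abstract "second inequality" for constant field extensions.

`Pl` = places with `deg : Pl → ℕ` (positive, finitely many places of bounded degree, unbounded),
`Pr ≤ Div⁰` the principal divisors, `Div⁰ / Pr` finite (given by finitely many representatives),
and Riemann's counting: every class of degree `≥ c` contains the same number `Nn (degree)` of
effective divisors.  Then for every `d ≥ 1`
  `Div⁰ ≤ ⟨ (d / gcd d (deg P)) • P : P ⟩ ⊔ Pr`,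
i.e. every divisor class of degree zero is a norm from the constant extension of degree `d`.

Proof: characters of the finite group `Div / (N ⊔ Pr)`, the formal `L`-series `L(t,χ)` is a
polynomial, `∏_{ζ^d = 1} L(ζ t, χ) = ∏_P (1 - t^(d_P deg P))^(-g_P)` does not depend on `χ` and is
not a polynomial. Pure Mathlib. Prefix `s27n_`.
-/
import Fermat.Agent.S27.Norm.Count

set_option autoImplicit false

namespace Fermat.Agent.S27

open PowerSeries Finset
open scoped Classical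

variable {Pl : Type*}

/-- The group of norms of divisors from the constant field extension of degree `d`. -/
noncomputable def s27n_N (deg : Pl → ℕ) (d : ℕ) : AddSubgroup (Pl →₀ ℤ) :=
  AddSubgroup.closure
    (Set.range fun P : Pl => Finsupp.single P (((d / Nat.gcd d (deg P) : ℕ) : ℤ)))

theorem s27n_single_mem_N (deg : Pl → ℕ) (d : ℕ) (P : Pl) :
    Finsupp.single P (((d / Nat.gcd d (deg P) : ℕ) : ℤ)) ∈ s27n_N deg d :=
  AddSubgroup.subset_closure ⟨P, rfl⟩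

theorem s27n_dP_pos {d : ℕ} (hd : 0 < d) (n : ℕ) : 0 < d / Nat.gcd d n :=
  Nat.div_pos (Nat.le_of_dvd hd (Nat.gcd_dvd_left d n)) (Nat.gcd_pos_of_pos_left _ hd)

/-- `Div / (N ⊔ Pr)` is finite. -/
theorem s27n_finite_quot (deg : Pl → ℕ) (hpos : ∀ P, 0 < deg P) (P₀ : Pl)
    (Pr : AddSubgroup (Pl →₀ ℤ))
    (R : Finset (Pl →₀ ℤ)) (hR : ∀ D, s27n_Dg deg D = 0 → ∃ r ∈ R, D - r ∈ Pr)
    (d : ℕ) (hd : 0 < d) :
    Finite ((Pl →₀ ℤ) ⧸ (s27n_N deg d ⊔ Pr)) := by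
  set H := s27n_N deg d ⊔ Pr with hH
  set dP := d / Nat.gcd d (deg P₀) with hdP
  have hdPpos : 0 < dP := s27n_dP_pos hd _
  set E₀ : Pl →₀ ℤ := Finsupp.single P₀ ((dP : ℕ) : ℤ) with hE₀
  have hE₀mem : E₀ ∈ H := AddSubgroup.mem_sup_left (s27n_single_mem_N deg d P₀)
  set e₀ : ℕ := dP * deg P₀ with he₀
  have he₀pos : 0 < e₀ := Nat.mul_pos hdPpos (hpos P₀)
  have hDgE₀ : s27n_Dg deg E₀ = (e₀ : ℤ) := by
    rw [hE₀, s27n_Dg_single, he₀]
    push_cast
    rfl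
  let rep : Fin e₀ → (Pl →₀ ℤ) := fun j =>
    if h : ∃ E : Pl →₀ ℤ, s27n_Dg deg E = (j : ℕ) then h.choose else 0
  let f : Fin e₀ × {r // r ∈ R} → (Pl →₀ ℤ) ⧸ H := fun p =>
    QuotientAddGroup.mk (rep p.1 + p.2.1)
  refine Finite.of_surjective f ?_
  intro q
  obtain ⟨D, rfl⟩ := QuotientAddGroup.mk_surjective q
  have he₀' : (0 : ℤ) < (e₀ : ℤ) := by exact_mod_cast he₀pos
  set k := s27n_Dg deg D / (e₀ : ℤ) with hk
  set j := s27n_Dg deg D % (e₀ : ℤ) with hj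
  have hj0 : 0 ≤ j := Int.emod_nonneg _ he₀'.ne'
  have hjlt : j < e₀ := Int.emod_lt_of_pos _ he₀'
  have hdecomp : s27n_Dg deg D = (e₀ : ℤ) * k + j := (Int.mul_ediv_add_emod _ _).symm
  have hjn : j.toNat < e₀ := by
    have := Int.toNat_of_nonneg hj0
    omega
  set D' := D - k • E₀ with hD'
  have hDgD' : s27n_Dg deg D' = ((⟨j.toNat, hjn⟩ : Fin e₀) : ℕ) := by
    rw [hD', map_sub, map_zsmul, hDgE₀, hdecomp, smul_eq_mul]
    simp only
    rw [Int.toNat_of_nonneg hj0]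
    ring
  have hex : ∃ E : Pl →₀ ℤ, s27n_Dg deg E = ((⟨j.toNat, hjn⟩ : Fin e₀) : ℕ) := ⟨D', hDgD'⟩
  have hrep : s27n_Dg deg (rep ⟨j.toNat, hjn⟩) = ((⟨j.toNat, hjn⟩ : Fin e₀) : ℕ) := by
    simp only [rep]
    rw [dif_pos hex]
    exact hex.choose_spec
  obtain ⟨r, hrR, hr⟩ := hR (D' - rep ⟨j.toNat, hjn⟩) (by rw [map_sub, hDgD', hrep, sub_self])
  refine ⟨(⟨j.toNat, hjn⟩, ⟨r, hrR⟩), ?_⟩
  simp only [f]
  rw [QuotientAddGroup.eq_iff_sub_mem]
  have : rep ⟨j.toNat, hjn⟩ + r - D = -(k • E₀ + (D' - rep ⟨j.toNat, hjn⟩ - r)) := by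
    rw [hD']
    abel
  rw [this]
  exact H.neg_mem (H.add_mem (H.zsmul_mem hE₀mem k) (AddSubgroup.mem_sup_right hr))

/-- The product over `j < d` of the rescaled Euler factors. -/
theorem s27n_prod_geo_rescale {K : Type*} [Field K] {ζ : K} {d : ℕ} (hζ : IsPrimitiveRoot ζ d)
    (hd : 0 < d) {n : ℕ} (hn : 0 < n) {a : K} (ha : a ^ (d / Nat.gcd d n) = 1) :
    ∏ j ∈ range d, s27n_geo n (a * (ζ ^ j) ^ n)
      = (s27n_geo (n * (d / Nat.gcd d n)) (1 : K)) ^ (Nat.gcd d n) := by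
  set U : K⟦X⟧ := (1 - (X : K⟦X⟧) ^ (n * (d / Nat.gcd d n))) ^ (Nat.gcd d n) with hU
  have h1 : (∏ j ∈ range d, s27n_geo n (a * (ζ ^ j) ^ n)) * U = 1 := by
    rw [hU, ← s27n_prod_euler_factor hζ hd hn ha, ← prod_mul_distrib]
    exact prod_eq_one fun j _ => s27n_geo_mul hn _
  have h2 : (s27n_geo (n * (d / Nat.gcd d n)) (1 : K)) ^ (Nat.gcd d n) * U = 1 := by
    rw [hU, ← mul_pow]
    have := s27n_geo_mul (Nat.mul_pos hn (s27n_dP_pos hd n)) (1 : K)
    rw [map_one, one_mul] at this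
    rw [this, one_pow]
  calc ∏ j ∈ range d, s27n_geo n (a * (ζ ^ j) ^ n)
      = (∏ j ∈ range d, s27n_geo n (a * (ζ ^ j) ^ n))
          * ((s27n_geo (n * (d / Nat.gcd d n)) (1 : K)) ^ (Nat.gcd d n) * U) := by
        rw [h2, mul_one]
    _ = ((∏ j ∈ range d, s27n_geo n (a * (ζ ^ j) ^ n)) * U)
          * (s27n_geo (n * (d / Nat.gcd d n)) (1 : K)) ^ (Nat.gcd d n) := by ring
    _ = _ := by rw [h1, one_mul]

/-- **(NORM), core version** (effective divisors with natural-number coefficients). -/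
theorem s27n_norm_core (deg : Pl → ℕ) (hpos : ∀ P, 0 < deg P)
    (hfin : ∀ n, {P | deg P ≤ n}.Finite) (hunb : ∀ n, ∃ P, n ≤ deg P)
    (Pr : AddSubgroup (Pl →₀ ℤ)) (hPr : ∀ D ∈ Pr, s27n_Dg deg D = 0)
    (R : Finset (Pl →₀ ℤ)) (hR : ∀ D, s27n_Dg deg D = 0 → ∃ r ∈ R, D - r ∈ Pr)
    (c : ℤ) (Nn : ℤ → ℕ)
    (hcount : ∀ D : Pl →₀ ℤ, c ≤ s27n_Dg deg D →
      Nat.card {B : Pl →₀ ℕ // s27n_toZ B - D ∈ Pr} = Nn (s27n_Dg deg D))
    (d : ℕ) (hd : 0 < d) (D₀ : Pl →₀ ℤ) (hD₀ : s27n_Dg deg D₀ = 0) :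
    D₀ ∈ s27n_N deg d ⊔ Pr := by
  by_contra hnot
  set H := s27n_N deg d ⊔ Pr with hH
  obtain ⟨P₀, -⟩ := hunb 0
  have : Finite ((Pl →₀ ℤ) ⧸ H) := s27n_finite_quot deg hpos P₀ Pr R hR d hd
  have hne : (QuotientAddGroup.mk D₀ : (Pl →₀ ℤ) ⧸ H) ≠ 0 := by
    rwa [Ne, QuotientAddGroup.eq_zero_iff]
  obtain ⟨ψ, hψ⟩ := AddChar.exists_apply_ne_zero.mpr hne
  set χ : AddChar (Pl →₀ ℤ) ℂ := ψ.compAddMonoidHom (QuotientAddGroup.mk' H) with hχdef
  have hχH : ∀ D ∈ H, χ D = 1 := by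
    intro D hD
    rw [hχdef, AddChar.compAddMonoidHom_apply, QuotientAddGroup.mk'_apply,
      (QuotientAddGroup.eq_zero_iff D).mpr hD, AddChar.map_zero_eq_one]
  have hχPr : ∀ D ∈ Pr, χ D = 1 := fun D hD => hχH D (AddSubgroup.mem_sup_right hD)
  have hχ0 : χ D₀ ≠ 1 := hψ
  set a : Pl → ℂ := fun P => χ (Finsupp.single P 1) with ha
  have haP : ∀ P, a P ^ (d / Nat.gcd d (deg P)) = 1 := by
    intro P
    rw [ha]
    simp only
    rw [← AddChar.map_nsmul_eq_pow, Finsupp.smul_single, nsmul_eq_mul, mul_one]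
    exact hχH _ (AddSubgroup.mem_sup_left (s27n_single_mem_N deg d P))
  -- the L-series
  set c' : ℕ := c.toNat with hc'
  have hcc' : c ≤ (c' : ℤ) := Int.self_le_toNat c
  set L : ℂ⟦X⟧ := PowerSeries.mk fun n => ∑ A ∈ s27n_eff deg hfin n, χ (s27n_toZ A) with hL
  have hLvan : ∀ n, c' ≤ n → coeff n L = 0 := by
    intro n hn
    rw [hL, coeff_mk]
    exact s27n_coeff_vanish hpos hfin Pr hPr c Nn hcount χ hχPr D₀ hD₀ hχ0 n
      (hcc'.trans (by exact_mod_cast hn))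
  have hEuler : ∀ N n, n ≤ N →
      coeff n L = coeff n (∏ P ∈ (hfin N).toFinset, s27n_geo (deg P) (a P)) := by
    intro N n hnN
    rw [hL, coeff_mk, s27n_coeff_prod_geo]
    have hset : s27n_effS deg (hfin N).toFinset n = s27n_eff deg hfin n := by
      ext A
      rw [s27n_mem_eff hpos hfin, s27n_mem_effS_of_le hpos]
      intro P hP
      exact (hfin N).mem_toFinset.mpr (le_trans (by exact hP) hnN)
    rw [hset]
    exact sum_congr rfl fun A _ => s27n_char_toZ χ A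
  -- the root of unity
  set ζ : ℂ := Complex.exp (2 * Real.pi * Complex.I / d) with hζdef
  have hζ : IsPrimitiveRoot ζ d := Complex.isPrimitiveRoot_exp d hd.ne'
  set M : ℂ⟦X⟧ := ∏ j ∈ range d, rescale (ζ ^ j) L with hM
  have hMvan : ∀ n, d * c' + 1 ≤ n → coeff n M = 0 := by
    have := s27n_poly_prod (range d) c' (f := fun j => rescale (ζ ^ j) L) (fun j _ n hn => by
      rw [coeff_rescale, hLvan n hn, mul_zero])
    rwa [card_range] at this
  -- a place of large degree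
  obtain ⟨Ps, hPs⟩ := hunb (d * c' + 1)
  set e : Pl → ℕ := fun P => deg P * (d / Nat.gcd d (deg P)) with he
  set g : Pl → ℕ := fun P => Nat.gcd d (deg P) with hg
  have hePs : deg Ps ≤ e Ps := Nat.le_mul_of_pos_right _ (s27n_dP_pos hd _)
  set S := (hfin (e Ps)).toFinset with hS
  have hPsS : Ps ∈ S := (hfin (e Ps)).mem_toFinset.mpr hePs
  -- congruence of `M` with the Euler product
  have hcong : ∀ n ≤ e Ps, coeff n M
      = coeff n (∏ j ∈ range d, ∏ P ∈ S, s27n_geo (deg P) (a P * (ζ ^ j) ^ deg P)) := by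
    refine s27n_congr_prod (range d) fun j _ n hn => ?_
    rw [coeff_rescale, hEuler (e Ps) n hn, ← coeff_rescale, map_prod]
    refine congrArg _ (prod_congr rfl fun P _ => ?_)
    rw [s27n_rescale_geo]
  have hprod : (∏ j ∈ range d, ∏ P ∈ S, s27n_geo (deg P) (a P * (ζ ^ j) ^ deg P))
      = PowerSeries.map (Nat.castRingHom ℂ) (∏ P ∈ S, (s27n_geo (e P) (1 : ℕ)) ^ g P) := by
    rw [prod_comm, map_prod]
    refine prod_congr rfl fun P _ => ?_
    rw [s27n_prod_geo_rescale hζ hd (hpos P) (haP P), map_pow, s27n_map_geo, map_one]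
  have hcoeff := hcong (e Ps) le_rfl
  rw [hprod, coeff_map, hMvan (e Ps) (hPs.trans hePs)] at hcoeff
  have hpos' := s27n_pos_prod S e g (fun P _ => Nat.gcd_pos_of_pos_left _ hd) hPsS
  have : ((coeff (e Ps) (∏ P ∈ S, (s27n_geo (e P) (1 : ℕ)) ^ g P) : ℕ) : ℂ) = 0 := by
    rw [hcoeff]
    rfl
  rw [Nat.cast_eq_zero] at this
  omega

end Fermat.Agent.S27
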