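/-
S27 / (NORM): user-facing forms of the abstract norm theorem `s27n_norm_core`:
effective divisors as `0 ≤ A` in `Pl →₀ ℤ`, finiteness of `Div⁰ / Pr` as a `Finite` instance of the
`Pic0`-shaped quotient. Pure Mathlib. Prefix `s27n_`.
-/
import Fermat.Agent.S27.Norm.Abs

set_option autoImplicit false

namespace Fermat.Agent.S27

open Finset
open scoped Classical

variable {Pl : Type*}

theorem s27n_toZ_nonneg (B : Pl →₀ ℕ) : (0 : Pl →₀ ℤ) ≤ s27n_toZ B := by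
  intro P
  simp

theorem s27n_toZ_toNat {A : Pl →₀ ℤ} (hA : 0 ≤ A) :
    s27n_toZ (A.mapRange Int.toNat rfl) = A := by
  ext P
  rw [s27n_toZ_apply, Finsupp.mapRange_apply]
  exact Int.toNat_of_nonneg (hA P)

/-- The two ways of counting effective divisors in a class agree. -/
noncomputable def s27n_effEquiv (Pr : AddSubgroup (Pl →₀ ℤ)) (D : Pl →₀ ℤ) :
    {A : Pl →₀ ℤ // 0 ≤ A ∧ A - D ∈ Pr} ≃ {B : Pl →₀ ℕ // s27n_toZ B - D ∈ Pr} where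
  toFun A := ⟨A.1.mapRange Int.toNat rfl, by rw [s27n_toZ_toNat A.2.1]; exact A.2.2⟩
  invFun B := ⟨s27n_toZ B.1, s27n_toZ_nonneg B.1, B.2⟩
  left_inv A := Subtype.ext (s27n_toZ_toNat A.2.1)
  right_inv B := Subtype.ext (s27n_toZ_injective (s27n_toZ_toNat (s27n_toZ_nonneg B.1)))

/-- Representatives of a finite `Pic0`-shaped quotient. -/
theorem s27n_reps_of_finite (deg : Pl → ℕ) (Pr : AddSubgroup (Pl →₀ ℤ))
    (hfinPic : Finite (↥(s27n_Dg deg).ker ⧸ Pr.addSubgroupOf (s27n_Dg deg).ker)) :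
    ∃ R : Finset (Pl →₀ ℤ), ∀ D, s27n_Dg deg D = 0 → ∃ r ∈ R, D - r ∈ Pr := by
  have := Fintype.ofFinite (↥(s27n_Dg deg).ker ⧸ Pr.addSubgroupOf (s27n_Dg deg).ker)
  refine ⟨Finset.univ.image fun q : ↥(s27n_Dg deg).ker ⧸ Pr.addSubgroupOf (s27n_Dg deg).ker =>
    ((Quotient.out q : ↥(s27n_Dg deg).ker) : Pl →₀ ℤ), fun D hD => ?_⟩
  set D' : ↥(s27n_Dg deg).ker := ⟨D, hD⟩ with hD'
  set q : ↥(s27n_Dg deg).ker ⧸ Pr.addSubgroupOf (s27n_Dg deg).ker := QuotientAddGroup.mk D'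
    with hq
  refine ⟨_, Finset.mem_image.mpr ⟨q, Finset.mem_univ _, rfl⟩, ?_⟩
  have h1 : (QuotientAddGroup.mk (Quotient.out q) :
      ↥(s27n_Dg deg).ker ⧸ Pr.addSubgroupOf (s27n_Dg deg).ker) = QuotientAddGroup.mk D' :=
    Quotient.out_eq q
  rw [QuotientAddGroup.eq_iff_sub_mem, AddSubgroup.mem_addSubgroupOf] at h1
  have h2 : D - ((Quotient.out q : ↥(s27n_Dg deg).ker) : Pl →₀ ℤ)
      = -(((Quotient.out q - D' : ↥(s27n_Dg deg).ker)) : Pl →₀ ℤ) := by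
    rw [AddSubgroup.coe_sub, hD']
    abel
  rw [h2]
  exact Pr.neg_mem h1

/-- **(NORM)**: the second inequality for constant field extensions, abstract form.
`Pl` = places, `Pr` = principal divisors, `Div⁰/Pr` finite, Riemann counting from degree `c` on.
Every divisor of degree zero is, modulo principal divisors, in the group generated by the
`(d / gcd d (deg P)) • P`, i.e. is a norm from the constant extension of degree `d`. -/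
theorem s27n_norm (deg : Pl → ℕ) (hpos : ∀ P, 0 < deg P)
    (hfin : ∀ n, {P | deg P ≤ n}.Finite) (hunb : ∀ n, ∃ P, n ≤ deg P)
    (Pr : AddSubgroup (Pl →₀ ℤ)) (hPr : ∀ D ∈ Pr, s27n_Dg deg D = 0)
    (hfinPic : Finite (↥(s27n_Dg deg).ker ⧸ Pr.addSubgroupOf (s27n_Dg deg).ker))
    (c : ℤ) (Nn : ℤ → ℕ)
    (hcount : ∀ D : Pl →₀ ℤ, c ≤ s27n_Dg deg D →
      Nat.card {A : Pl →₀ ℤ // 0 ≤ A ∧ A - D ∈ Pr} = Nn (s27n_Dg deg D))
    (d : ℕ) (hd : 0 < d) (D₀ : Pl →₀ ℤ) (hD₀ : s27n_Dg deg D₀ = 0) :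
    D₀ ∈ s27n_N deg d ⊔ Pr := by
  obtain ⟨R, hR⟩ := s27n_reps_of_finite deg Pr hfinPic
  refine s27n_norm_core deg hpos hfin hunb Pr hPr R hR c Nn (fun D hD => ?_) d hd D₀ hD₀
  rw [← hcount D hD]
  exact (Nat.card_congr (s27n_effEquiv Pr D)).symm

/-- Explicit form: every divisor of degree zero is `Σ_P n_P (d / gcd d (deg P)) P` plus a
principal divisor. -/
theorem s27n_norm_explicit (deg : Pl → ℕ) (hpos : ∀ P, 0 < deg P)
    (hfin : ∀ n, {P | deg P ≤ n}.Finite) (hunb : ∀ n, ∃ P, n ≤ deg P)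
    (Pr : AddSubgroup (Pl →₀ ℤ)) (hPr : ∀ D ∈ Pr, s27n_Dg deg D = 0)
    (hfinPic : Finite (↥(s27n_Dg deg).ker ⧸ Pr.addSubgroupOf (s27n_Dg deg).ker))
    (c : ℤ) (Nn : ℤ → ℕ)
    (hcount : ∀ D : Pl →₀ ℤ, c ≤ s27n_Dg deg D →
      Nat.card {A : Pl →₀ ℤ // 0 ≤ A ∧ A - D ∈ Pr} = Nn (s27n_Dg deg D))
    (d : ℕ) (hd : 0 < d) (D₀ : Pl →₀ ℤ) (hD₀ : s27n_Dg deg D₀ = 0) :
    ∃ (m : Pl →₀ ℤ) (E : Pl →₀ ℤ), E ∈ Pr ∧
      ∀ P, D₀ P = m P * ((d / Nat.gcd d (deg P) : ℕ) : ℤ) + E P := by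
  have h := s27n_norm deg hpos hfin hunb Pr hPr hfinPic c Nn hcount d hd D₀ hD₀
  obtain ⟨N, hN, E, hE, rfl⟩ := AddSubgroup.mem_sup.mp h
  suffices hs : ∃ m : Pl →₀ ℤ, ∀ P, N P = m P * ((d / Nat.gcd d (deg P) : ℕ) : ℤ) by
    obtain ⟨m, hm⟩ := hs
    exact ⟨m, E, hE, fun P => by rw [Finsupp.add_apply, hm P]⟩
  refine AddSubgroup.closure_induction (p := fun N _ => ∃ m : Pl →₀ ℤ,
    ∀ P, N P = m P * ((d / Nat.gcd d (deg P) : ℕ) : ℤ)) ?_ ?_ ?_ ?_ hN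
  · rintro _ ⟨Q, rfl⟩
    refine ⟨Finsupp.single Q 1, fun P => ?_⟩
    by_cases h : Q = P
    · subst h
      simp
    · simp [Finsupp.single_eq_of_ne' h]
  · exact ⟨0, fun P => by simp⟩
  · rintro x y _ _ ⟨m, hm⟩ ⟨m', hm'⟩
    exact ⟨m + m', fun P => by rw [Finsupp.add_apply, Finsupp.add_apply, hm, hm', add_mul]⟩
  · rintro x _ ⟨m, hm⟩
    exact ⟨-m, fun P => by rw [Finsupp.neg_apply, Finsupp.neg_apply, hm, neg_mul]⟩

end Fermat.Agent.S27
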