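/-
S27 / (NORM), glue to the geometric-Frobenius design, part 1: the orbit dictionary.
For a permutation `τ` of a type `P` all of whose orbits are finite, the `τ`-invariant finitely
supported functions `P →₀ ℤ` ("invariant divisors") are the finitely supported functions on the
orbit space, `Ψ : (Orb →₀ ℤ) →+ (P →₀ ℤ)` with left inverse `Φ`; the degree becomes the weighted
degree with weights the orbit lengths.  Pure Mathlib.  Prefix `s27n_`.
-/
import Mathlib

set_option autoImplicit false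

namespace Fermat.Agent.S27

open Finset Function
open scoped Classical

variable {P : Type*} (τ : Equiv.Perm P)

/-- the orbit space of a permutation -/
abbrev s27n_Orb : Type _ := Quotient (Equiv.Perm.SameCycle.setoid τ)

/-- the orbit of a point -/
def s27n_pi (p : P) : s27n_Orb τ := Quotient.mk _ p

/-- a chosen point of an orbit -/
noncomputable def s27n_rep (O : s27n_Orb τ) : P := Quotient.out O

theorem s27n_pi_rep (O : s27n_Orb τ) : s27n_pi τ (s27n_rep τ O) = O := Quotient.out_eq O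

theorem s27n_pi_eq_iff {p p' : P} : s27n_pi τ p = s27n_pi τ p' ↔ τ.SameCycle p p' :=
  Quotient.eq (r := Equiv.Perm.SameCycle.setoid τ)

theorem s27n_rep_injective : Function.Injective (s27n_rep τ) := by
  intro O O' h
  rw [← s27n_pi_rep τ O, ← s27n_pi_rep τ O', h]

theorem s27n_pi_apply (p : P) : s27n_pi τ (τ p) = s27n_pi τ p := by
  rw [s27n_pi_eq_iff]
  exact Equiv.Perm.sameCycle_apply_left.mpr (Equiv.Perm.SameCycle.refl τ p)

theorem s27n_pi_iterate (p : P) (j : ℕ) : s27n_pi τ (τ^[j] p) = s27n_pi τ p := by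
  induction j with
  | zero => rfl
  | succ j ih => rw [iterate_succ_apply', s27n_pi_apply, ih]

theorem s27n_pi_pow (p : P) (j : ℕ) : s27n_pi τ ((τ ^ j) p) = s27n_pi τ p := by
  rw [← Equiv.Perm.iterate_eq_pow]
  exact s27n_pi_iterate τ p j

/-- all orbits are finite -/
def s27n_Per : Prop := ∀ p : P, ∃ N : ℕ, 0 < N ∧ (τ ^ N) p = p

variable {τ}

theorem s27n_Per.mem (h : s27n_Per τ) (p : P) : p ∈ periodicPts τ := by
  obtain ⟨N, hN, hp⟩ := h p
  refine mk_mem_periodicPts hN ?_
  rw [IsPeriodicPt, IsFixedPt, Equiv.Perm.iterate_eq_pow]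
  exact hp

theorem s27n_Per.pos (h : s27n_Per τ) (p : P) : 0 < minimalPeriod τ p :=
  minimalPeriod_pos_of_mem_periodicPts (h.mem p)

theorem s27n_iterate_minimalPeriod (p : P) : τ^[minimalPeriod τ p] p = p :=
  isPeriodicPt_minimalPeriod τ p

/-- in a finite orbit, every point of the orbit is a (small) forward iterate -/
theorem s27n_Per.exists_iterate (h : s27n_Per τ) {p p' : P} (hpp : τ.SameCycle p p') :
    ∃ j < minimalPeriod τ p, τ^[j] p = p' := by
  obtain ⟨i, hi⟩ := hpp
  set N := minimalPeriod τ p with hN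
  have hNpos : 0 < N := h.pos p
  have hNz : (0 : ℤ) < (N : ℤ) := by exact_mod_cast hNpos
  have hfix : IsFixedPt (τ ^ N) p := by
    rw [IsFixedPt, ← Equiv.Perm.iterate_eq_pow]
    exact s27n_iterate_minimalPeriod p
  have hj0 : 0 ≤ i % (N : ℤ) := Int.emod_nonneg _ hNz.ne'
  have hjlt : i % (N : ℤ) < N := Int.emod_lt_of_pos _ hNz
  refine ⟨(i % (N : ℤ)).toNat, ?_, ?_⟩
  · have := Int.toNat_of_nonneg hj0
    omega
  · rw [Equiv.Perm.iterate_eq_pow, ← hi, ← zpow_natCast, Int.toNat_of_nonneg hj0]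
    conv_rhs => rw [← Int.mul_ediv_add_emod i (N : ℤ), add_comm, zpow_add, zpow_mul, zpow_natCast]
    rw [Equiv.Perm.mul_apply, (hfix.perm_zpow (i / (N : ℤ))).eq]

theorem s27n_minimalPeriod_eq_of_sameCycle (h : s27n_Per τ) {p p' : P} (hpp : τ.SameCycle p p') :
    minimalPeriod τ p' = minimalPeriod τ p := by
  obtain ⟨j, -, rfl⟩ := h.exists_iterate hpp
  exact minimalPeriod_apply_iterate (h.mem p) j

variable (τ)

/-- the length of an orbit -/
noncomputable def s27n_len (O : s27n_Orb τ) : ℕ := minimalPeriod τ (s27n_rep τ O)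

/-- the cycle through `p`, as a divisor -/
noncomputable def s27n_cyc (p : P) : P →₀ ℤ :=
  ∑ j ∈ range (minimalPeriod τ p), Finsupp.single (τ^[j] p) 1

variable {τ}

theorem s27n_cyc_apply (h : s27n_Per τ) (p q : P) :
    s27n_cyc τ p q = if s27n_pi τ q = s27n_pi τ p then 1 else 0 := by
  rw [s27n_cyc, Finsupp.finsetSum_apply]
  split_ifs with hq
  · obtain ⟨j, hj, rfl⟩ := h.exists_iterate ((s27n_pi_eq_iff τ).mp hq.symm)
    rw [sum_eq_single j]
    · simp
    · intro i hi hij
      rw [Finsupp.single_apply, if_neg]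
      intro heq
      exact hij (iterate_injOn_Iio_minimalPeriod (Set.mem_Iio.mpr (mem_range.mp hi))
        (Set.mem_Iio.mpr hj) heq)
    · intro hnot
      exact absurd (mem_range.mpr hj) hnot
  · refine sum_eq_zero fun i _ => ?_
    rw [Finsupp.single_apply, if_neg]
    rintro rfl
    exact hq (s27n_pi_iterate τ p i)

/-- the degree (sum of the coefficients) -/
noncomputable def s27n_degP : (P →₀ ℤ) →+ ℤ := Finsupp.liftAddHom fun _ => AddMonoidHom.id ℤ

theorem s27n_degP_apply (D : P →₀ ℤ) : s27n_degP D = D.sum fun _ m => m := by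
  rw [s27n_degP, Finsupp.liftAddHom_apply]
  rfl

@[simp] theorem s27n_degP_single (p : P) (m : ℤ) : s27n_degP (Finsupp.single p m) = m := by
  simp [s27n_degP]

theorem s27n_degP_mapDomain (σ : P → P) (D : P →₀ ℤ) :
    s27n_degP (Finsupp.mapDomain σ D) = s27n_degP D := by
  induction D using Finsupp.induction_linear with
  | zero => simp
  | add A B hA hB => rw [Finsupp.mapDomain_add, map_add, map_add, hA, hB]
  | single p m => rw [Finsupp.mapDomain_single, s27n_degP_single, s27n_degP_single]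

theorem s27n_degP_cyc (p : P) : s27n_degP (s27n_cyc τ p) = (minimalPeriod τ p : ℤ) := by
  rw [s27n_cyc, map_sum]
  simp

/-- `τ` fixes the cycle through `p` -/
theorem s27n_mapDomain_cyc (p : P) : Finsupp.mapDomain τ (s27n_cyc τ p) = s27n_cyc τ p := by
  rw [s27n_cyc, Finsupp.mapDomain_finsetSum]
  simp only [Finsupp.mapDomain_single]
  have h1 : ∀ j, τ (τ^[j] p) = τ^[j + 1] p := fun j => (iterate_succ_apply' τ j p).symm
  simp only [h1]
  have hN1 := sum_range_succ (fun j => Finsupp.single (τ^[j] p) (1 : ℤ)) (minimalPeriod τ p)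
  have hN2 := sum_range_succ' (fun j => Finsupp.single (τ^[j] p) (1 : ℤ)) (minimalPeriod τ p)
  rw [hN1] at hN2
  simp only [s27n_iterate_minimalPeriod, iterate_zero, id] at hN2
  exact (add_right_cancel hN2).symm

/-! ### Invariant divisors -/

theorem s27n_inv_apply {D : P →₀ ℤ} (hD : Finsupp.mapDomain τ D = D) (p : P) :
    D (τ p) = D p := by
  conv_lhs => rw [← hD]
  exact Finsupp.mapDomain_apply τ.injective D p

theorem s27n_inv_iterate {D : P →₀ ℤ} (hD : Finsupp.mapDomain τ D = D) (p : P) (j : ℕ) :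
    D (τ^[j] p) = D p := by
  induction j with
  | zero => rfl
  | succ j ih => rw [iterate_succ_apply', s27n_inv_apply hD, ih]

theorem s27n_inv_of_apply {D : P →₀ ℤ} (hD : ∀ p, D (τ p) = D p) :
    Finsupp.mapDomain τ D = D := by
  ext q
  obtain ⟨p, rfl⟩ := τ.surjective q
  rw [Finsupp.mapDomain_apply τ.injective, hD]

theorem s27n_inv_const (h : s27n_Per τ) {D : P →₀ ℤ} (hD : Finsupp.mapDomain τ D = D) {p p' : P}
    (hpp : s27n_pi τ p = s27n_pi τ p') : D p = D p' := by
  obtain ⟨j, -, rfl⟩ := h.exists_iterate ((s27n_pi_eq_iff τ).mp hpp)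
  exact (s27n_inv_iterate hD p j).symm

variable (τ)

/-- from divisors on the orbit space to (invariant) divisors -/
noncomputable def s27n_Psi : (s27n_Orb τ →₀ ℤ) →+ (P →₀ ℤ) :=
  Finsupp.liftAddHom fun O => zmultiplesHom (P →₀ ℤ) (s27n_cyc τ (s27n_rep τ O))

/-- restriction of a divisor to the chosen points of the orbits -/
noncomputable def s27n_Phi : (P →₀ ℤ) →+ (s27n_Orb τ →₀ ℤ) :=
  Finsupp.comapDomain.addMonoidHom (s27n_rep_injective τ)

variable {τ}

@[simp] theorem s27n_Phi_apply (D : P →₀ ℤ) (O : s27n_Orb τ) :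
    s27n_Phi τ D O = D (s27n_rep τ O) := rfl

theorem s27n_Psi_single (O : s27n_Orb τ) (m : ℤ) :
    s27n_Psi τ (Finsupp.single O m) = m • s27n_cyc τ (s27n_rep τ O) := by
  simp [s27n_Psi]

theorem s27n_Psi_apply (h : s27n_Per τ) (E : s27n_Orb τ →₀ ℤ) (p : P) :
    s27n_Psi τ E p = E (s27n_pi τ p) := by
  induction E using Finsupp.induction_linear with
  | zero => simp
  | add A B hA hB => rw [map_add, Finsupp.add_apply, Finsupp.add_apply, hA, hB]
  | single O m =>
    rw [s27n_Psi_single, Finsupp.smul_apply, s27n_cyc_apply h, s27n_pi_rep, Finsupp.single_apply]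
    by_cases hO : s27n_pi τ p = O
    · rw [if_pos hO, if_pos hO.symm, smul_eq_mul, mul_one]
    · rw [if_neg hO, if_neg (fun h' => hO h'.symm), smul_zero]

theorem s27n_Phi_Psi (h : s27n_Per τ) (E : s27n_Orb τ →₀ ℤ) : s27n_Phi τ (s27n_Psi τ E) = E := by
  ext O
  rw [s27n_Phi_apply, s27n_Psi_apply h, s27n_pi_rep]

theorem s27n_Psi_Phi (h : s27n_Per τ) {D : P →₀ ℤ} (hD : Finsupp.mapDomain τ D = D) :
    s27n_Psi τ (s27n_Phi τ D) = D := by
  ext p
  rw [s27n_Psi_apply h, s27n_Phi_apply]
  exact s27n_inv_const h hD (s27n_pi_rep τ _)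

theorem s27n_Psi_inv (h : s27n_Per τ) (E : s27n_Orb τ →₀ ℤ) :
    Finsupp.mapDomain τ (s27n_Psi τ E) = s27n_Psi τ E := by
  refine s27n_inv_of_apply fun p => ?_
  rw [s27n_Psi_apply h, s27n_Psi_apply h, s27n_pi_apply]

theorem s27n_Psi_injective (h : s27n_Per τ) : Function.Injective (s27n_Psi τ) := by
  intro E E' hE
  rw [← s27n_Phi_Psi h E, ← s27n_Phi_Psi h E', hE]

theorem s27n_Psi_nonneg (h : s27n_Per τ) (E : s27n_Orb τ →₀ ℤ) :
    0 ≤ s27n_Psi τ E ↔ 0 ≤ E := by
  constructor
  · intro hE O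
    have := hE (s27n_rep τ O)
    rwa [s27n_Psi_apply h, s27n_pi_rep] at this
  · intro hE p
    rw [s27n_Psi_apply h]
    exact hE _

/-- the degree of `Ψ E` is the weighted degree of `E` -/
theorem s27n_degP_Psi (E : s27n_Orb τ →₀ ℤ) :
    s27n_degP (s27n_Psi τ E)
      = (Finsupp.liftAddHom fun O => AddMonoidHom.mulRight ((s27n_len τ O : ℕ) : ℤ)) E := by
  induction E using Finsupp.induction_linear with
  | zero => simp
  | add A B hA hB => rw [map_add, map_add, map_add, hA, hB]
  | single O m =>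
    rw [s27n_Psi_single, map_zsmul, s27n_degP_cyc, Finsupp.liftAddHom_apply_single]
    rfl

end Fermat.Agent.S27
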