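/-
S27 / (NORM), glue to the geometric-Frobenius design, part 2.
`s27n_hnorm_perm`: for a permutation `τ` of an infinite type `P` with finite orbits ("Frobenius on
the places over the algebraic closure"), a subgroup `Pr` of principal divisors and Riemann counting
of the `τ`-invariant effective divisors in an invariant class, every `τ`-invariant divisor of
degree zero is, modulo `Pr`, the norm `Σ_{i<t} τ^i D'` of a `τ^t`-invariant divisor of degree zero.
Pure Mathlib.  Prefix `s27n_`.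
-/
import Fermat.Agent.S27.Norm.Main
import Fermat.Agent.S27.Norm.Orbit

set_option autoImplicit false

namespace Fermat.Agent.S27

open Finset Function
open scoped Classical

/-- `s27n_norm` with a finite set of representatives instead of the `Finite` instance. -/
theorem s27n_norm_R {Pl : Type*} (deg : Pl → ℕ) (hpos : ∀ P, 0 < deg P)
    (hfin : ∀ n, {P | deg P ≤ n}.Finite) (hunb : ∀ n, ∃ P, n ≤ deg P)
    (Pr : AddSubgroup (Pl →₀ ℤ)) (hPr : ∀ D ∈ Pr, s27n_Dg deg D = 0)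
    (R : Finset (Pl →₀ ℤ)) (hR : ∀ D, s27n_Dg deg D = 0 → ∃ r ∈ R, D - r ∈ Pr)
    (c : ℤ) (Nn : ℤ → ℕ)
    (hcount : ∀ D : Pl →₀ ℤ, c ≤ s27n_Dg deg D →
      Nat.card {A : Pl →₀ ℤ // 0 ≤ A ∧ A - D ∈ Pr} = Nn (s27n_Dg deg D))
    (d : ℕ) (hd : 0 < d) (D₀ : Pl →₀ ℤ) (hD₀ : s27n_Dg deg D₀ = 0) :
    D₀ ∈ s27n_N deg d ⊔ Pr := by
  refine s27n_norm_core deg hpos hfin hunb Pr hPr R hR c Nn (fun D hD => ?_) d hd D₀ hD₀
  rw [← hcount D hD]
  exact (Nat.card_congr (s27n_effEquiv Pr D)).symm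

variable {P : Type*} {τ : Equiv.Perm P}

theorem s27n_Per.pow (h : s27n_Per τ) (t : ℕ) : s27n_Per (τ ^ t) := by
  intro p
  obtain ⟨N, hN, hp⟩ := h p
  refine ⟨N, hN, ?_⟩
  rw [← pow_mul, mul_comm, pow_mul]
  have hfix : IsFixedPt (τ ^ N) p := hp
  have := hfix.iterate t
  rwa [Equiv.Perm.iterate_eq_pow] at this

theorem s27n_mapDomain_pow_succ (i : ℕ) (D : P →₀ ℤ) :
    Finsupp.mapDomain τ (Finsupp.mapDomain (τ ^ i) D) = Finsupp.mapDomain (τ ^ (i + 1)) D := by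
  rw [← Finsupp.mapDomain_comp, pow_succ']
  rfl

theorem s27n_minimalPeriod_pow {t : ℕ} (ht : 0 < t) (p : P) :
    minimalPeriod (τ ^ t) p = minimalPeriod τ p / Nat.gcd (minimalPeriod τ p) t := by
  rw [← Equiv.Perm.iterate_eq_pow]
  exact minimalPeriod_iterate_eq_div_gcd ht.ne'

theorem s27n_cyc_congr (h : s27n_Per τ) {p p' : P} (hpp : s27n_pi τ p = s27n_pi τ p') :
    s27n_cyc τ p = s27n_cyc τ p' := by
  ext q
  rw [s27n_cyc_apply h, s27n_cyc_apply h, hpp]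

/-- **The norm of a `τ^t`-cycle** is a multiple of the `τ`-cycle. -/
theorem s27n_norm_cyc (h : s27n_Per τ) {t : ℕ} (ht : 0 < t) (p : P) :
    ∑ i ∈ range t, Finsupp.mapDomain (τ ^ i) (s27n_cyc (τ ^ t) p)
      = ((t / Nat.gcd t (minimalPeriod τ p) : ℕ) : ℤ) • s27n_cyc τ p := by
  set D' := s27n_cyc (τ ^ t) p with hD'
  set S := ∑ i ∈ range t, Finsupp.mapDomain (τ ^ i) D' with hS
  set N := minimalPeriod τ p with hN
  have hNpos : 0 < N := h.pos p
  -- (a) invariance of `S`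
  have hD'inv : Finsupp.mapDomain (τ ^ t) D' = D' := s27n_mapDomain_cyc p
  have hSinv : Finsupp.mapDomain τ S = S := by
    rw [hS, Finsupp.mapDomain_finsetSum]
    simp only [s27n_mapDomain_pow_succ]
    have h1 := sum_range_succ (fun i => Finsupp.mapDomain (τ ^ i) D') t
    have h2 := sum_range_succ' (fun i => Finsupp.mapDomain (τ ^ i) D') t
    rw [h1] at h2
    simp only [hD'inv, pow_zero] at h2
    have h3 : Finsupp.mapDomain (⇑(1 : Equiv.Perm P)) D' = D' := Finsupp.mapDomain_id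
    rw [h3] at h2
    exact (add_right_cancel h2).symm
  -- (b) support of `S`
  have hSsupp : ∀ q, s27n_pi τ q ≠ s27n_pi τ p → S q = 0 := by
    intro q hq
    rw [hS, Finsupp.finsetSum_apply]
    refine sum_eq_zero fun i _ => ?_
    rw [hD', s27n_cyc, Finsupp.mapDomain_finsetSum, Finsupp.finsetSum_apply]
    refine sum_eq_zero fun j _ => ?_
    rw [Finsupp.mapDomain_single, Finsupp.single_apply, if_neg]
    rintro rfl
    apply hq
    rw [s27n_pi_pow, Equiv.Perm.iterate_eq_pow, ← pow_mul, s27n_pi_pow]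
  -- (c) `S` is a multiple of the cycle
  set r₀ := s27n_rep τ (s27n_pi τ p) with hr₀
  have hPhi : s27n_Phi τ S = Finsupp.single (s27n_pi τ p) (S r₀) := by
    ext O'
    rw [s27n_Phi_apply, Finsupp.single_apply]
    by_cases hO : s27n_pi τ p = O'
    · rw [if_pos hO, hr₀, hO]
    · rw [if_neg hO]
      apply hSsupp
      rw [s27n_pi_rep]
      exact fun h' => hO h'.symm
  have hSeq : S = S r₀ • s27n_cyc τ p := by
    have e1 : S = s27n_Psi τ (s27n_Phi τ S) := (s27n_Psi_Phi h hSinv).symm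
    have hc : s27n_cyc τ r₀ = s27n_cyc τ p := s27n_cyc_congr h (s27n_pi_rep τ _)
    rw [hPhi, s27n_Psi_single, hc] at e1
    exact e1
  -- (d) degrees
  have hdeg1 : s27n_degP S = (t : ℤ) * ((N / Nat.gcd N t : ℕ) : ℤ) := by
    rw [hS, map_sum]
    simp only [s27n_degP_mapDomain]
    rw [sum_const, card_range, hD', s27n_degP_cyc, s27n_minimalPeriod_pow ht, nsmul_eq_mul]
  have hdeg2 : s27n_degP S = S r₀ * (N : ℤ) := by
    conv_lhs => rw [hSeq]
    rw [map_zsmul, s27n_degP_cyc, smul_eq_mul]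
  have harith : (t / Nat.gcd t N) * N = t * (N / Nat.gcd N t) := by
    rw [Nat.gcd_comm N t]
    obtain ⟨t', ht'⟩ := Nat.gcd_dvd_left t N
    obtain ⟨N', hN'⟩ := Nat.gcd_dvd_right t N
    have hg : 0 < Nat.gcd t N := Nat.gcd_pos_of_pos_left _ ht
    set g := Nat.gcd t N with hgdef
    have e1 : t / g = t' := by
      rw [ht']
      exact Nat.mul_div_cancel_left _ hg
    have e2 : N / g = N' := by
      rw [hN']
      exact Nat.mul_div_cancel_left _ hg
    rw [e1, e2]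
    calc t' * N = t' * (g * N') := by rw [← hN']
      _ = (g * t') * N' := by ring
      _ = t * N' := by rw [← ht']
  have hm : S r₀ = ((t / Nat.gcd t N : ℕ) : ℤ) := by
    have hNz : (N : ℤ) ≠ 0 := by exact_mod_cast hNpos.ne'
    apply mul_right_cancel₀ hNz
    rw [← hdeg2, hdeg1]
    exact_mod_cast harith.symm
  rw [hSeq, hm]

/-! ### Translation of the hypotheses -/

theorem s27n_minimalPeriod_eq_len (h : s27n_Per τ) (p : P) :
    minimalPeriod τ p = s27n_len τ (s27n_pi τ p) :=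
  s27n_minimalPeriod_eq_of_sameCycle h ((s27n_pi_eq_iff τ).mp (s27n_pi_rep τ (s27n_pi τ p)))

theorem s27n_len_finite (h : s27n_Per τ) (hfix : ∀ n, 0 < n → {p | (τ ^ n) p = p}.Finite)
    (n : ℕ) : {O : s27n_Orb τ | s27n_len τ O ≤ n}.Finite := by
  have hsub : {O : s27n_Orb τ | s27n_len τ O ≤ n}
      ⊆ s27n_rep τ ⁻¹' {p | (τ ^ n.factorial) p = p} := by
    intro O hO
    have hpos := h.pos (s27n_rep τ O)
    have hdvd : s27n_len τ O ∣ n.factorial := Nat.dvd_factorial hpos hO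
    show (τ ^ n.factorial) (s27n_rep τ O) = s27n_rep τ O
    rw [← Equiv.Perm.iterate_eq_pow]
    exact (isPeriodicPt_minimalPeriod τ _).trans_dvd hdvd
  exact ((hfix _ (Nat.factorial_pos n)).preimage (s27n_rep_injective τ).injOn).subset hsub

theorem s27n_len_unbounded [Infinite P] (h : s27n_Per τ)
    (hfix : ∀ n, 0 < n → {p | (τ ^ n) p = p}.Finite) (n : ℕ) :
    ∃ O : s27n_Orb τ, n ≤ s27n_len τ O := by
  by_contra hcon
  rw [not_exists] at hcon
  have hsub : (Set.univ : Set P) ⊆ {p | (τ ^ n.factorial) p = p} := by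
    intro p _
    have hlt : minimalPeriod τ p ≤ n := by
      rw [s27n_minimalPeriod_eq_len h]
      exact (not_le.mp (hcon _)).le
    have hdvd : minimalPeriod τ p ∣ n.factorial := Nat.dvd_factorial (h.pos p) hlt
    show (τ ^ n.factorial) p = p
    rw [← Equiv.Perm.iterate_eq_pow]
    exact (isPeriodicPt_minimalPeriod τ _).trans_dvd hdvd
  exact Set.infinite_univ ((hfix _ (Nat.factorial_pos n)).subset hsub)

theorem s27n_Dg_len (E : s27n_Orb τ →₀ ℤ) :
    s27n_Dg (s27n_len τ) E = s27n_degP (s27n_Psi τ E) := (s27n_degP_Psi E).symm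

theorem s27n_mapDomain_neg (σ : P → P) (D : P →₀ ℤ) :
    Finsupp.mapDomain σ (-D) = -Finsupp.mapDomain σ D :=
  (Finsupp.mapDomain.addMonoidHom σ).map_neg D

/-- every element of the norm group of the orbit space is the norm of a `τ^t`-invariant divisor -/
theorem s27n_N_is_norm (h : s27n_Per τ) {t : ℕ} (ht : 0 < t) {M : s27n_Orb τ →₀ ℤ}
    (hM : M ∈ s27n_N (s27n_len τ) t) :
    ∃ D' : P →₀ ℤ, Finsupp.mapDomain (τ ^ t) D' = D' ∧
      ∑ i ∈ range t, Finsupp.mapDomain (τ ^ i) D' = s27n_Psi τ M := by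
  refine AddSubgroup.closure_induction (p := fun M _ => ∃ D' : P →₀ ℤ,
    Finsupp.mapDomain (τ ^ t) D' = D' ∧
      ∑ i ∈ range t, Finsupp.mapDomain (τ ^ i) D' = s27n_Psi τ M) ?_ ?_ ?_ ?_ hM
  · rintro _ ⟨O, rfl⟩
    refine ⟨s27n_cyc (τ ^ t) (s27n_rep τ O), s27n_mapDomain_cyc _, ?_⟩
    rw [s27n_norm_cyc h ht, s27n_Psi_single]
    rfl
  · exact ⟨0, by simp, by simp⟩
  · rintro x y _ _ ⟨D₁, h₁, h₁'⟩ ⟨D₂, h₂, h₂'⟩
    refine ⟨D₁ + D₂, by rw [Finsupp.mapDomain_add, h₁, h₂], ?_⟩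
    simp only [Finsupp.mapDomain_add]
    rw [sum_add_distrib, h₁', h₂', map_add]
  · rintro x _ ⟨D₁, h₁, h₁'⟩
    refine ⟨-D₁, by rw [s27n_mapDomain_neg, h₁], ?_⟩
    simp only [s27n_mapDomain_neg]
    rw [sum_neg_distrib, h₁', map_neg]

/-- **(NORM) for a permutation with finite orbits** (the divisor-level form of `hnorm`). -/
theorem s27n_hnorm_perm (τ : Equiv.Perm P) [Infinite P]
    (hper : ∀ p, ∃ N, 0 < N ∧ (τ ^ N) p = p)
    (hfix : ∀ n, 0 < n → {p | (τ ^ n) p = p}.Finite)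
    (Pr : AddSubgroup (P →₀ ℤ)) (hPr : ∀ D ∈ Pr, (D.sum fun _ m => m) = 0)
    (R : Finset (P →₀ ℤ))
    (hR : ∀ D : P →₀ ℤ, Finsupp.mapDomain τ D = D → (D.sum fun _ m => m) = 0 →
      ∃ r ∈ R, Finsupp.mapDomain τ r = r ∧ D - r ∈ Pr)
    (c : ℤ) (Nn : ℤ → ℕ)
    (hcount : ∀ D : P →₀ ℤ, Finsupp.mapDomain τ D = D → c ≤ (D.sum fun _ m => m) →
      Nat.card {A : P →₀ ℤ // 0 ≤ A ∧ Finsupp.mapDomain τ A = A ∧ A - D ∈ Pr}
        = Nn (D.sum fun _ m => m))
    (t : ℕ) (ht : 0 < t) (D : P →₀ ℤ) (hD : Finsupp.mapDomain τ D = D)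
    (hD0 : (D.sum fun _ m => m) = 0) :
    ∃ D' : P →₀ ℤ, Finsupp.mapDomain (τ ^ t) D' = D' ∧ (D'.sum fun _ m => m) = 0 ∧
      D - ∑ i ∈ range t, Finsupp.mapDomain (τ ^ i) D' ∈ Pr := by
  have h : s27n_Per τ := hper
  simp only [← s27n_degP_apply] at hPr hR hcount hD0 ⊢
  set Pr' : AddSubgroup (s27n_Orb τ →₀ ℤ) := Pr.comap (s27n_Psi τ) with hPr'def
  have hPr' : ∀ E ∈ Pr', s27n_Dg (s27n_len τ) E = 0 := by
    intro E hE
    rw [s27n_Dg_len]
    exact hPr _ hE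
  have hR' : ∀ E : s27n_Orb τ →₀ ℤ, s27n_Dg (s27n_len τ) E = 0 →
      ∃ r' ∈ R.image (s27n_Phi τ), E - r' ∈ Pr' := by
    intro E hE
    rw [s27n_Dg_len] at hE
    obtain ⟨r, hrR, hrinv, hr⟩ := hR (s27n_Psi τ E) (s27n_Psi_inv h E) hE
    refine ⟨s27n_Phi τ r, mem_image_of_mem _ hrR, ?_⟩
    rw [hPr'def, AddSubgroup.mem_comap, map_sub, s27n_Psi_Phi h hrinv]
    exact hr
  have hcount' : ∀ E : s27n_Orb τ →₀ ℤ, c ≤ s27n_Dg (s27n_len τ) E →
      Nat.card {B : s27n_Orb τ →₀ ℤ // 0 ≤ B ∧ B - E ∈ Pr'} = Nn (s27n_Dg (s27n_len τ) E) := by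
    intro E hE
    rw [s27n_Dg_len] at hE ⊢
    rw [← hcount (s27n_Psi τ E) (s27n_Psi_inv h E) hE]
    refine Nat.card_congr
      { toFun := fun B => ⟨s27n_Psi τ B.1, (s27n_Psi_nonneg h _).mpr B.2.1, s27n_Psi_inv h _, ?_⟩
        invFun := fun A => ⟨s27n_Phi τ A.1, ?_, ?_⟩
        left_inv := fun B => Subtype.ext (s27n_Phi_Psi h B.1)
        right_inv := fun A => Subtype.ext (s27n_Psi_Phi h A.2.2.1) }
    · have hB : s27n_Psi τ (B.1 - E) ∈ Pr := B.2.2
      rwa [map_sub] at hB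
    · rw [← s27n_Psi_nonneg h, s27n_Psi_Phi h A.2.2.1]
      exact A.2.1
    · rw [hPr'def, AddSubgroup.mem_comap, map_sub, s27n_Psi_Phi h A.2.2.1]
      exact A.2.2.2
  have hD₀ : s27n_Dg (s27n_len τ) (s27n_Phi τ D) = 0 := by
    rw [s27n_Dg_len, s27n_Psi_Phi h hD]
    exact hD0
  have hmem := s27n_norm_R (s27n_len τ) (fun O => h.pos _) (s27n_len_finite h hfix)
    (s27n_len_unbounded h hfix) Pr' hPr' (R.image (s27n_Phi τ)) hR' c Nn hcount' t ht
    (s27n_Phi τ D) hD₀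
  obtain ⟨M, hM, E, hE, hsum⟩ := AddSubgroup.mem_sup.mp hmem
  obtain ⟨D', hD'inv, hD'sum⟩ := s27n_N_is_norm h ht hM
  have hDeq : D = s27n_Psi τ M + s27n_Psi τ E := by
    rw [← map_add, hsum, s27n_Psi_Phi h hD]
  have hEPr : s27n_Psi τ E ∈ Pr := hE
  refine ⟨D', hD'inv, ?_, ?_⟩
  · have h1 : s27n_degP (∑ i ∈ range t, Finsupp.mapDomain (τ ^ i) D')
        = (t : ℤ) * s27n_degP D' := by
      rw [map_sum]
      simp only [s27n_degP_mapDomain]
      rw [sum_const, card_range, nsmul_eq_mul]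
    have h2 : s27n_degP (s27n_Psi τ M) = 0 := by
      have := congrArg s27n_degP hDeq
      rw [map_add, hD0, hPr _ hEPr, add_zero] at this
      exact this.symm
    rw [hD'sum, h2] at h1
    have htz : (t : ℤ) ≠ 0 := by exact_mod_cast ht.ne'
    rcases mul_eq_zero.mp h1.symm with h3 | h3
    · exact absurd h3 htz
    · exact h3
  · rw [hD'sum, hDeq, add_sub_cancel_left]
    exact hEPr

end Fermat.Agent.S27
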